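import Fermat.Agent.WaringHua.Main
import Fermat.Agent.WaringVinogradov.Local

/-!
# The singular series for `s ≥ 2 ^ k + 1`

For `k ≥ 4` this is the range `s ≥ 4 k`; for nine cubes ones suffice modulo `9` and the theorem of
Cauchy and Davenport gives the other primes.
-/

set_option autoImplicit false

noncomputable section

namespace FA.WaringHua

open Finset FA.WaringAsymptotic

/-- Nine cubes represent everything modulo every prime power. -/
theorem exists_pattern_cubes {s : ℕ} (hs : 9 ≤ s) (N p : ℕ) (hp : p.Prime) :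
    ∃ (y : Fin s → ℕ) (i₀ : Fin s), ¬p ∣ y i₀ ∧
      ((p ^ (2 * padicValNat p 3 + 1) : ℕ) : ℤ) ∣ ((∑ i, y i ^ 3 : ℕ) : ℤ) - N := by
  rcases eq_or_ne p 3 with rfl | h3
  · have hτ : padicValNat 3 3 = 1 := by simp
    rw [hτ]
    obtain ⟨y, i₀, hy, hN⟩ := exists_pattern_low (k := 3) (g := 2) (by norm_num)
      (show 1 ≤ s by omega) N hp (Or.inl (by norm_num; omega))
    exact exists_pattern_lift (k := 3) (e := 1) (τ := 1) (by norm_num) hp le_rfl
      (Or.inr (Or.inl (by norm_num))) (by norm_num) hτ hy hN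
  · rw [padicValNat.eq_zero_of_not_dvd fun hd =>
      h3 ((Nat.prime_dvd_prime_iff_eq hp Nat.prime_three).1 hd), mul_zero, zero_add, pow_one]
    exact exists_pattern_prime (by norm_num) (by omega) N hp

theorem three_mul_le {k s : ℕ} (hk : 3 ≤ k) (hs : 2 ^ k + 1 ≤ s) : 3 * k ≤ s := by
  have h : ∀ n : ℕ, 3 * (n + 3) ≤ 2 ^ (n + 3) + 1 := fun n => by
    induction n with
    | zero => norm_num
    | succ n ih =>
      have : 2 ^ (n + 1 + 3) = 2 * 2 ^ (n + 3) := by ring
      omega
  obtain ⟨n, rfl⟩ : ∃ n, k = n + 3 := ⟨k - 3, by omega⟩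
  exact (h n).trans hs

theorem four_mul_le {k s : ℕ} (hk : 4 ≤ k) (hs : 2 ^ k + 1 ≤ s) : 4 * k ≤ s := by
  have h : ∀ n : ℕ, 4 * (n + 4) ≤ 2 ^ (n + 4) + 1 := fun n => by
    induction n with
    | zero => norm_num
    | succ n ih =>
      have : 2 ^ (n + 1 + 4) = 2 * 2 ^ (n + 4) := by ring
      omega
  obtain ⟨n, rfl⟩ : ∃ n, k = n + 4 := ⟨k - 4, by omega⟩
  exact (h n).trans hs

/-- **The singular series is bounded below.** -/
theorem exists_singularSeries_ge_hua {k s : ℕ} (hk : 3 ≤ k) (hs : 2 ^ k + 1 ≤ s) :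
    ∃ c : ℝ, 0 < c ∧ ∀ N, c ≤ singularSeries k s N := by
  rcases Nat.lt_or_ge k 4 with h4 | h4
  · obtain rfl : k = 3 := by omega
    norm_num at hs
    exact exists_singularSeries_ge_of_pattern (by norm_num) (by omega)
      fun N p hp => exists_pattern_cubes hs N p hp
  · exact WaringVinogradov.exists_singularSeries_ge_four (by omega) (four_mul_le h4 hs)

end FA.WaringHua

end
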