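import Fermat.Agent.WaringHua.Minor
import Fermat.Agent.WaringAsymptotic.Positivity

/-!
# The asymptotic formula for `s ≥ 2 ^ k + 1`

The circle method of `WaringAsymptotic` with Hua's inequality on the minor arcs; the major arcs
need `s ≥ 3 k` only.
-/

set_option autoImplicit false

noncomputable section

namespace FA.WaringHua

open Finset Filter Topology FA.WaringAsymptotic
open FA.ThreePrimes hiding singularSeries singularTerm
open scoped Real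

/-- **The major arcs and the singular series.** -/
theorem exists_circle {k s : ℕ} (hk : 2 ≤ k) (hs : 2 ^ k + 1 ≤ s) (h3k : 3 * k ≤ s) :
    ∃ C : ℝ, 0 < C ∧
    ∀ N : ℕ, 1 ≤ N →
      ‖((repCount k s N : ℕ) : ℂ) -
          (weightConv (1 / (k : ℝ)) s N : ℂ) * ∑' q, singularTerm k s N q‖ ≤
        C * (N : ℝ) ^ ((s : ℝ) / k - 1) *
          (rootFloor k N : ℝ) ^ (-(weylSaving k / 2)) := by
  obtain ⟨n, rfl⟩ : ∃ n, s = n + 1 := ⟨s - 1, by omega⟩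
  obtain ⟨C₁, hC₁, hmin⟩ := exists_minor_sum hk hs
  obtain ⟨C₂, hC₂, harc⟩ := exists_arc_error hk n
  obtain ⟨C₃, hC₃, htail⟩ := exists_arc_tail hk h3k
  obtain ⟨C₄, hC₄, hser⟩ := exists_singular_tail hk h3k
  obtain ⟨Z, hZ0, hZ⟩ := exists_sum_norm_arcCoef_le hk h3k
  have hk0 : (0 : ℝ) < k := by exact_mod_cast (show 0 < k by omega)
  have hX2 : 2 ≤ ((n + 1 : ℕ) : ℝ) * (1 / (k : ℝ)) := by
    rw [mul_one_div, le_div_iff₀ hk0]
    exact_mod_cast (show 2 * k ≤ n + 1 by omega)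
  obtain ⟨C₆, hC₆, hconv⟩ := exists_weightConv_asymptotic (c := 1 / (k : ℝ)) (by positivity) hX2
  obtain ⟨G, hG⟩ : ∃ G : ℝ, G = C₆ + Real.Gamma (1 + 1 / (k : ℝ)) ^ (n + 1) /
      Real.Gamma (((n + 1 : ℕ) : ℝ) * (1 / (k : ℝ))) := ⟨_, rfl⟩
  have hg1 := Real.Gamma_pos_of_pos (show (0 : ℝ) < 1 + 1 / (k : ℝ) by positivity)
  have hg2 := Real.Gamma_pos_of_pos (show 0 < ((n + 1 : ℕ) : ℝ) * (1 / (k : ℝ)) by linarith)
  have hG0 : 0 < G := by rw [hG]; positivity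
  refine ⟨C₁ + C₂ + Z * C₃ + G * C₄, by positivity, fun N hN => ?_⟩
  obtain ⟨P, hP⟩ : ∃ P, P = rootFloor k N := ⟨_, rfl⟩
  obtain ⟨hP1, hPN, hNP⟩ := rootFloor_spec (show 1 ≤ k by omega) hN
  rw [← hP] at hP1 hPN hNP ⊢
  have hPr : (1 : ℝ) ≤ P := by exact_mod_cast hP1
  have hN1 : (1 : ℝ) ≤ N := by exact_mod_cast hN
  obtain ⟨Q, hQ⟩ : ∃ Q, Q = ⌊(P : ℝ) ^ (1 / 10 : ℝ)⌋₊ := ⟨_, rfl⟩
  obtain ⟨M, hM⟩ : ∃ M, M = (n + 1) * N := ⟨_, rfl⟩
  obtain ⟨δ, hδ⟩ : ∃ δ, δ = (P : ℝ) ^ (1 / 10 : ℝ) / (N : ℝ) := ⟨_, rfl⟩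
  obtain ⟨F, hF⟩ : ∃ F : ℕ → ℂ, F = fun h : ℕ => waringSum k P ((h : ℝ) / M) ^ (n + 1) *
      eAdd (-((N : ℝ) * ((h : ℝ) / M))) := ⟨_, rfl⟩
  have hM0 : (0 : ℝ) < M := by rw [hM]; positivity
  obtain ⟨σ, hσ⟩ : ∃ σ, σ = weylSaving k / 2 := ⟨_, rfl⟩
  rw [← hσ]
  have hσ' : σ ≤ 1 / 80 := by rw [hσ]; linarith [weylSaving_le_of_two_le hk]
  have hσ0 : 0 ≤ σ := by rw [hσ]; linarith [weylSaving_pos k]
  obtain ⟨E, hE⟩ : ∃ E : ℝ, E = (N : ℝ) ^ (((n + 1 : ℕ) : ℝ) / k - 1) * (P : ℝ) ^ (-σ) :=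
    ⟨_, rfl⟩
  have hE0 : 0 ≤ E := by rw [hE]; positivity
  have hY0 : 0 ≤ ((n + 1 : ℕ) : ℝ) / k - 1 := by
    rw [← mul_one_div]; linarith
  have hPE : ∀ e : ℝ, e ≤ ((n + 1 : ℕ) : ℝ) - k - σ → (P : ℝ) ^ e ≤ E := fun e he => by
    rw [hE]
    refine (Real.rpow_le_rpow_of_exponent_le hPr he).trans ?_
    rw [sub_eq_add_neg _ σ, Real.rpow_add (by linarith)]
    refine mul_le_mul_of_nonneg_right ?_ (by positivity)
    refine le_trans (le_of_eq ?_) (pow_root_le hY0 hPN)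
    congr 1
    field_simp
  -- the centres are apart
  have hQP : (Q : ℝ) ≤ (P : ℝ) ^ (1 / 10 : ℝ) := hQ ▸ Nat.floor_le (by positivity)
  have hsep : ((arcCentres Q : Set (Σ _ : ℕ, ℕ))).PairwiseDisjoint (arc M δ) :=
    hQ ▸ hδ ▸ arc_pairwiseDisjoint M hk hP1 hPN
  have hdecomp : ∑ h ∈ range M, F h =
      ∑ h ∈ minorSet M P N, F h + ∑ z ∈ arcCentres Q, ∑ h ∈ arc M δ z, F h := by
    rw [← sum_biUnion hsep, minorSet, ← hQ, ← hδ, sum_sdiff]
    exact biUnion_subset.2 fun z _ => filter_subset _ _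
  have p1 : ‖∑ h ∈ minorSet M P N, F h‖ ≤ M * (C₁ * E) := by
    refine (norm_sum_le _ _).trans (le_trans (le_of_eq (sum_congr rfl fun h _ => ?_))
      ((hmin N P M hP1 hPN hNP (le_of_eq hM.symm)).trans ?_))
    · rw [hF, norm_mul, norm_eAdd, mul_one, norm_pow]
    · rw [mul_right_comm, mul_comm (C₁ * _) (M : ℝ)]
      exact mul_le_mul_of_nonneg_left
        (mul_le_mul_of_nonneg_left (hPE _ (by rw [hσ])) hC₁.le) hM0.le
  have p3 : ‖∑ z ∈ arcCentres Q, ∑ h ∈ arc M δ z, (F h - arcCoef k (n + 1) N z *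
      mainTerm k (n + 1) N ((h : ℝ) / M + -centre z))‖ ≤ M * (C₂ * E) := by
    refine (norm_sum_le _ _).trans ((sum_le_card_nsmul _ _ (C₂ * (P : ℝ) ^ ((n : ℝ) + 4 / 10))
      fun z hz => ?_).trans ?_)
    · refine (norm_sum_le _ _).trans ?_
      have := harc N P M hP hN hM z (hQ ▸ hz)
      rw [← hδ] at this
      rwa [hF]
    · rw [nsmul_eq_mul]
      have hcard := hQ ▸ card_arcCentres_le P hP1
      refine (mul_le_mul_of_nonneg_right hcard (by positivity)).trans ?_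
      have hPM : (P : ℝ) ^ (k : ℝ) ≤ M := by
        rw [Real.rpow_natCast]
        exact_mod_cast hPN.trans (hM ▸ Nat.le_mul_of_pos_left N n.succ_pos)
      calc (P : ℝ) ^ (2 / 10 : ℝ) * (C₂ * (P : ℝ) ^ ((n : ℝ) + 4 / 10))
          = C₂ * ((P : ℝ) ^ (k : ℝ) * (P : ℝ) ^ ((n : ℝ) + 6 / 10 - k)) := by
            rw [mul_left_comm, ← Real.rpow_add (by linarith), ← Real.rpow_add (by linarith)]
            ring_nf
        _ ≤ C₂ * ((M : ℝ) * E) := mul_le_mul_of_nonneg_left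
            (mul_le_mul hPM (hPE _ (by push_cast; linarith)) (by positivity) hM0.le) hC₂.le
        _ = _ := by ring
  have hZsum := hZ N Q
  have p5 : ‖∑ z ∈ arcCentres Q, arcCoef k (n + 1) N z *
      ∑ h ∈ range M \ arc M δ z, mainTerm k (n + 1) N ((h : ℝ) / M + -centre z)‖ ≤
        M * (Z * C₃ * E) := by
    refine (norm_sum_le _ _).trans ((sum_le_sum fun z hz => ?_).trans
      ((sum_mul _ _ (C₃ * M * E)).ge.trans ((mul_le_mul_of_nonneg_right hZsum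
        (by positivity)).trans (le_of_eq (by ring)))))
    rw [norm_mul]
    refine mul_le_mul_of_nonneg_left ?_ (norm_nonneg _)
    have := htail N P M hP hN hM z (hQ ▸ hz)
    rw [← hδ] at this
    refine this.trans ?_
    rw [hE, mul_assoc (C₃ * M)]
    exact mul_le_mul_of_nonneg_left (mul_le_mul_of_nonneg_left
      (Real.rpow_le_rpow_of_exponent_le hPr (by linarith)) (by positivity)) (by positivity)
  have hident : (M : ℂ) * repCount k (n + 1) N -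
      (M : ℂ) * weightConv (1 / (k : ℝ)) (n + 1) N * ∑ z ∈ arcCentres Q, arcCoef k (n + 1) N z =
      ∑ h ∈ minorSet M P N, F h + ∑ z ∈ arcCentres Q, ∑ h ∈ arc M δ z,
          (F h - arcCoef k (n + 1) N z * mainTerm k (n + 1) N ((h : ℝ) / M + -centre z)) -
        ∑ z ∈ arcCentres Q, arcCoef k (n + 1) N z *
          ∑ h ∈ range M \ arc M δ z, mainTerm k (n + 1) N ((h : ℝ) / M + -centre z) := by
    have h1 : ∀ z ∈ arcCentres Q,
        (M : ℂ) * weightConv (1 / (k : ℝ)) (n + 1) N * arcCoef k (n + 1) N z =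
          ∑ h ∈ arc M δ z, arcCoef k (n + 1) N z *
              mainTerm k (n + 1) N ((h : ℝ) / M + -centre z) +
            arcCoef k (n + 1) N z *
              ∑ h ∈ range M \ arc M δ z, mainTerm k (n + 1) N ((h : ℝ) / M + -centre z) := by
      intro z _
      rw [← mul_sum, ← mul_add, add_comm (∑ h ∈ arc M δ z, _), sum_sdiff
        (show arc M δ z ⊆ range M from filter_subset _ _),
        sum_grid_mainTerm (by omega) hN hM]
      ring
    rw [← sum_grid_waringSum (by omega) (by omega) hN hM, mul_sum, sum_congr rfl h1,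
      sum_add_distrib, ← hP]
    rw [show ∑ h ∈ range M, waringSum k P ((h : ℝ) / M) ^ (n + 1) *
      eAdd (-((N : ℝ) * ((h : ℝ) / M))) = ∑ h ∈ range M, F h by rw [hF], hdecomp]
    simp only [sum_sub_distrib]
    ring
  have hmain : ‖((repCount k (n + 1) N : ℕ) : ℂ) -
      (weightConv (1 / (k : ℝ)) (n + 1) N : ℂ) * ∑ z ∈ arcCentres Q, arcCoef k (n + 1) N z‖ ≤
        (C₁ + C₂ + Z * C₃) * E := by
    refine le_of_mul_le_mul_left ?_ hM0
    rw [← Complex.norm_natCast M, ← norm_mul, mul_sub, ← mul_assoc, hident, Complex.norm_natCast]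
    refine (norm_sub_le _ _).trans ((add_le_add ((norm_add_le _ _).trans (add_le_add p1 p3))
      p5).trans (le_of_eq ?_))
    ring
  have hJ : |weightConv (1 / (k : ℝ)) (n + 1) N| ≤ G * (N : ℝ) ^ (((n + 1 : ℕ) : ℝ) / k - 1) := by
    have h := hconv N hN
    rw [mul_one_div] at h
    have h2 : (N : ℝ) ^ (((n + 1 : ℕ) : ℝ) / k - 2) ≤ (N : ℝ) ^ (((n + 1 : ℕ) : ℝ) / k - 1) :=
      Real.rpow_le_rpow_of_exponent_le hN1 (by linarith)
    have h3 := mul_le_mul_of_nonneg_left h2 hC₆.le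
    have h4 : 0 ≤ Real.Gamma (1 + 1 / (k : ℝ)) ^ (n + 1) /
        Real.Gamma (((n + 1 : ℕ) : ℝ) / k) * (N : ℝ) ^ (((n + 1 : ℕ) : ℝ) / k - 1) := by
      rw [mul_one_div] at hg2; positivity
    rw [hG, mul_one_div]
    rw [abs_le] at h ⊢
    constructor <;> linarith
  have hlast : ‖(weightConv (1 / (k : ℝ)) (n + 1) N : ℂ) *
      (∑ z ∈ arcCentres Q, arcCoef k (n + 1) N z - ∑' q, singularTerm k (n + 1) N q)‖ ≤
        G * C₄ * E := by
    rw [norm_mul, Complex.norm_real, Real.norm_eq_abs, sum_arcCoef]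
    refine (mul_le_mul hJ ((hser N Q).2.1.trans (mul_le_mul_of_nonneg_left (?_ : _ ≤ (P : ℝ) ^ (-σ))
      hC₄.le)) (norm_nonneg _) (by positivity)).trans (le_of_eq (by rw [hE]; ring))
    have h1 : (P : ℝ) ^ (1 / 10 : ℝ) ≤ ((Q + 1 : ℕ) : ℝ) := by
      push_cast; exact hQ ▸ (Nat.lt_floor_add_one _).le
    refine (Real.rpow_le_rpow_of_nonpos (by positivity) h1 (by norm_num)).trans ?_
    rw [← Real.rpow_mul (by linarith)]
    exact Real.rpow_le_rpow_of_exponent_le hPr (by linarith)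
  rw [show ((repCount k (n + 1) N : ℕ) : ℂ) -
      (weightConv (1 / (k : ℝ)) (n + 1) N : ℂ) * ∑' q, singularTerm k (n + 1) N q =
    (((repCount k (n + 1) N : ℕ) : ℂ) -
      (weightConv (1 / (k : ℝ)) (n + 1) N : ℂ) * ∑ z ∈ arcCentres Q, arcCoef k (n + 1) N z) +
    (weightConv (1 / (k : ℝ)) (n + 1) N : ℂ) *
      (∑ z ∈ arcCentres Q, arcCoef k (n + 1) N z - ∑' q, singularTerm k (n + 1) N q) by ring]
  refine (norm_add_le _ _).trans ((add_le_add hmain hlast).trans (le_of_eq ?_))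
  rw [hE]
  ring

/-- **The asymptotic formula.** -/
theorem exists_asymptotic {k s : ℕ} (hk : 2 ≤ k) (hs : 2 ^ k + 1 ≤ s) (h3k : 3 * k ≤ s) :
    ∃ C δ : ℝ,
    0 < C ∧ 0 < δ ∧ ∀ N : ℕ, 1 ≤ N →
      |(repCount k s N : ℝ) - singularSeries k s N *
          (Real.Gamma (1 + 1 / (k : ℝ)) ^ s / Real.Gamma ((s : ℝ) / k)) *
          (N : ℝ) ^ ((s : ℝ) / k - 1)| ≤
        C * (N : ℝ) ^ ((s : ℝ) / k - 1 - δ) := by
  have hk0 : (0 : ℝ) < k := by exact_mod_cast (show 0 < k by omega)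
  have hX2 : 2 ≤ (s : ℝ) * (1 / (k : ℝ)) := by
    rw [mul_one_div, le_div_iff₀ hk0]
    exact_mod_cast (show 2 * k ≤ s by omega)
  obtain ⟨C₁, hC₁, hcirc⟩ := exists_circle hk hs h3k
  obtain ⟨C₂, hC₂, hconv⟩ := exists_weightConv_asymptotic (c := 1 / (k : ℝ)) (by positivity) hX2
  obtain ⟨C₄, hC₄, hser⟩ := exists_singular_tail hk h3k
  have hσ := weylSaving_pos k
  refine ⟨C₁ * (2 : ℝ) ^ (weylSaving k / 2) + C₄ * C₂, weylSaving k / 2 / k, by positivity,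
    by positivity, fun N hN => ?_⟩
  obtain ⟨hP1, hPN, hNP⟩ := rootFloor_spec (show 1 ≤ k by omega) hN
  have hN1 : (1 : ℝ) ≤ N := by exact_mod_cast hN
  obtain ⟨T, hT⟩ : ∃ T, T = ∑' q, singularTerm k s N q := ⟨_, rfl⟩
  have h1 := hcirc N hN
  rw [← hT] at h1
  have h2 := hconv N hN
  rw [mul_one_div] at h2
  obtain ⟨J, hJ⟩ : ∃ J, J = weightConv (1 / (k : ℝ)) s N := ⟨_, rfl⟩
  rw [← hJ] at h1 h2
  obtain ⟨A, hA⟩ : ∃ A : ℝ, A = Real.Gamma (1 + 1 / (k : ℝ)) ^ s / Real.Gamma ((s : ℝ) / k) *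
    (N : ℝ) ^ ((s : ℝ) / k - 1) := ⟨_, rfl⟩
  rw [← hA] at h2
  rw [mul_assoc, ← hA, singularSeries, ← hT]
  have h3 : |(repCount k s N : ℝ) - J * T.re| ≤
      C₁ * (N : ℝ) ^ ((s : ℝ) / k - 1) * (rootFloor k N : ℝ) ^ (-(weylSaving k / 2)) := by
    refine le_trans (le_of_eq ?_) ((Complex.abs_re_le_norm _).trans h1)
    simp
  have h4 : |T.re| ≤ C₄ := (Complex.abs_re_le_norm T).trans (hT ▸ (hser N 0).2.2)
  have h5 : |T.re * (J - A)| ≤ C₄ * (C₂ * (N : ℝ) ^ ((s : ℝ) / k - 2)) := by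
    rw [abs_mul]
    exact mul_le_mul h4 h2 (abs_nonneg _) hC₄.le
  obtain ⟨δ, hδ⟩ : ∃ δ, δ = weylSaving k / 2 / k := ⟨_, rfl⟩
  rw [← hδ]
  have hδ1 : δ ≤ 1 := by
    rw [hδ, div_le_one hk0]
    have : (2 : ℝ) ≤ k := by exact_mod_cast hk
    linarith [weylSaving_le k]
  have h6' : C₁ * (N : ℝ) ^ ((s : ℝ) / k - 1) * (rootFloor k N : ℝ) ^ (-(weylSaving k / 2)) ≤
      C₁ * (2 : ℝ) ^ (weylSaving k / 2) * (N : ℝ) ^ ((s : ℝ) / k - 1 - δ) := by
    refine (mul_le_mul_of_nonneg_left (root_neg_le (by omega) hP1 hN hNP (by linarith))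
      (by positivity)).trans (le_of_eq ?_)
    rw [sub_eq_add_neg _ δ, Real.rpow_add (by linarith), hδ]
    ring
  have h7 : C₄ * (C₂ * (N : ℝ) ^ ((s : ℝ) / k - 2)) ≤
      C₄ * C₂ * (N : ℝ) ^ ((s : ℝ) / k - 1 - δ) := by
    rw [← mul_assoc]
    exact mul_le_mul_of_nonneg_left (Real.rpow_le_rpow_of_exponent_le hN1 (by linarith))
      (by positivity)
  rw [abs_le] at h3 h5 ⊢
  constructor <;> linarith

/-- **Every large number is a sum of `s` positive powers**, in `≫ N ^ (s/k - 1)` ways. -/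
theorem exists_repCount_ge {k s : ℕ} (hk : 2 ≤ k) (hs : 2 ^ k + 1 ≤ s) (h3k : 3 * k ≤ s)
    (hser : ∃ c : ℝ, 0 < c ∧ ∀ N, c ≤ singularSeries k s N) : ∃ (c : ℝ) (N₀ : ℕ),
    0 < c ∧ ∀ N, N₀ ≤ N → c * (N : ℝ) ^ ((s : ℝ) / k - 1) ≤ repCount k s N := by
  obtain ⟨C, δ, hC, hδ, h⟩ := exists_asymptotic hk hs h3k
  obtain ⟨c, hc, hser⟩ := hser
  obtain ⟨G, hG⟩ : ∃ G : ℝ,
      G = Real.Gamma (1 + 1 / (k : ℝ)) ^ s / Real.Gamma ((s : ℝ) / k) := ⟨_, rfl⟩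
  have hk0 : (0 : ℝ) < k := by exact_mod_cast (show 0 < k by omega)
  have hs0 : (0 : ℝ) < s := by
    exact_mod_cast (show 0 < s by omega)
  have hG0 : 0 < G := hG ▸ div_pos (pow_pos (Real.Gamma_pos_of_pos (by positivity)) s)
    (Real.Gamma_pos_of_pos (by positivity))
  have hlim : Tendsto (fun N : ℕ => C * (N : ℝ) ^ (-δ)) atTop (𝓝 0) := by
    simpa using ((tendsto_rpow_neg_atTop hδ).comp tendsto_natCast_atTop_atTop).const_mul C
  obtain ⟨N₁, hN₁⟩ := eventually_atTop.1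
    (hlim.eventually (eventually_le_nhds (show 0 < c * G / 2 by positivity)))
  refine ⟨c * G / 2, max N₁ 1, by positivity, fun N hN => ?_⟩
  have hN1 : 1 ≤ N := le_trans (le_max_right _ _) hN
  have hNr : (0 : ℝ) < N := Nat.cast_pos.2 hN1
  have h1 := (abs_le.1 (h N hN1)).1
  rw [← hG] at h1
  have h2 := hN₁ N (le_trans (le_max_left _ _) hN)
  have hY : 0 ≤ (N : ℝ) ^ ((s : ℝ) / k - 1) := by positivity
  have h3 := mul_le_mul_of_nonneg_right (mul_le_mul_of_nonneg_right (hser N) hG0.le) hY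
  have h4 : C * (N : ℝ) ^ ((s : ℝ) / k - 1 - δ) ≤ c * G / 2 * (N : ℝ) ^ ((s : ℝ) / k - 1) := by
    rw [sub_eq_add_neg _ δ, Real.rpow_add hNr, mul_left_comm, mul_comm ((N : ℝ) ^ _)]
    exact mul_le_mul_of_nonneg_right h2 hY
  linarith

end FA.WaringHua

end
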