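import Fermat.Agent.HuaInequality.Count
import Fermat.Agent.WaringAsymptotic.Minor

/-!
# The minor arcs with `2 ^ k + 1` powers

Weyl's inequality for one sum and Hua's inequality for the other `2 ^ k` give
`O (M P ^ (s - k - δ))` for the sum of `|f| ^ s` over the points `h / M` outside the major arcs.
-/

set_option autoImplicit false

noncomputable section

namespace FA.WaringHua

open Finset FA.WaringAsymptotic
open FA.ThreePrimes (nearDist centre arcCentres arc)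

/-- Hua's inequality with a real exponent. -/
theorem exists_moment {k : ℕ} (hk : 1 ≤ k) {ε : ℝ} (hε : 0 < ε) : ∃ C : ℝ, 0 < C ∧
    ∀ P : ℕ, 1 ≤ P → (powerDiagonal k (2 ^ (k - 1)) P : ℝ) ≤
      C * (P : ℝ) ^ (2 * ((2 ^ (k - 1) : ℕ) : ℝ) - k + ε) := by
  obtain ⟨j, rfl⟩ : ∃ j, k = j + 1 := ⟨k - 1, by omega⟩
  rw [Nat.add_sub_cancel]
  obtain ⟨C, hC, h⟩ := HuaInequality.exists_powerDiagonal_le_hua (show j < j + 1 by omega) hε
  refine ⟨C, hC, fun P hP => (h P hP).trans (le_of_eq ?_)⟩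
  have hP0 : (0 : ℝ) < P := Nat.cast_pos.2 hP
  rw [mul_assoc, ← Real.rpow_natCast, ← Real.rpow_add hP0,
    Nat.cast_sub (Nat.lt_two_pow_self).le, pow_succ' 2 j]
  push_cast
  rfl

/-- **The minor arcs.** -/
theorem exists_minor_sum {k s : ℕ} (hk : 2 ≤ k) (hs : 2 ^ k + 1 ≤ s) : ∃ C : ℝ, 0 < C ∧
    ∀ N P M : ℕ, 1 ≤ P → P ^ k ≤ N → N < (P + 1) ^ k → s * N ≤ M →
      ∑ h ∈ minorSet M P N, ‖waringSum k P ((h : ℝ) / M)‖ ^ s ≤
        C * M * (P : ℝ) ^ ((s : ℝ) - k - weylSaving k / 2) := by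
  obtain ⟨t, ht⟩ : ∃ t, t = 2 ^ (k - 1) := ⟨_, rfl⟩
  have h2t : 2 * t = 2 ^ k := by
    rw [ht, ← pow_succ', show k - 1 + 1 = k by omega]
  have hts : 2 * t < s := by omega
  obtain ⟨e, he⟩ : ∃ e, s = 2 * t + (e + 1) := ⟨s - 2 * t - 1, by omega⟩
  obtain ⟨C₁, hC₁, hsup⟩ := exists_minor_sup hk
  obtain ⟨C₂, hC₂, hmom⟩ := exists_moment (k := k) (by omega) (half_pos (weylSaving_pos k))
  rw [← ht] at hmom
  refine ⟨C₁ ^ (e + 1) * C₂, by positivity, fun N P M hP hPN hNP hM => ?_⟩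
  have hP1 : (1 : ℝ) ≤ P := by exact_mod_cast hP
  have hM' : t * P ^ k < M := by
    refine lt_of_lt_of_le ?_ hM
    refine lt_of_le_of_lt (Nat.mul_le_mul_left t hPN) ?_
    exact Nat.mul_lt_mul_of_pos_right (by omega) (lt_of_lt_of_le (pow_pos hP k) hPN)
  refine (sum_le_sum (g := fun h : ℕ => (C₁ * (P : ℝ) ^ (1 - weylSaving k)) ^ (e + 1) *
    ‖waringSum k P ((h : ℝ) / M)‖ ^ (2 * t)) fun h hh => ?_).trans ?_
  · rw [he, pow_add, mul_comm]
    refine mul_le_mul_of_nonneg_right (pow_le_pow_left₀ (norm_nonneg _) ?_ _) (by positivity)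
    rw [minorSet, mem_sdiff, mem_biUnion] at hh
    refine hsup N P _ hP hPN hNP fun z hz => ?_
    by_contra hle
    exact hh.2 ⟨z, hz, mem_filter.2 ⟨hh.1, not_lt.1 hle⟩⟩
  rw [← mul_sum]
  refine (mul_le_mul_of_nonneg_left (sum_le_sum_of_subset_of_nonneg (t := range M)
    (show minorSet M P N ⊆ range M from sdiff_subset)
    fun i _ _ => by positivity) (by positivity)).trans ?_
  rw [sum_norm_waringSum_pow hM']
  refine (mul_le_mul_of_nonneg_left (mul_le_mul_of_nonneg_left (hmom P hP)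
    (Nat.cast_nonneg M)) (by positivity)).trans ?_
  calc (C₁ * (P : ℝ) ^ (1 - weylSaving k)) ^ (e + 1) *
        ((M : ℝ) * (C₂ * (P : ℝ) ^ (2 * (t : ℝ) - k + weylSaving k / 2)))
      = C₁ ^ (e + 1) * C₂ * M * (P : ℝ) ^ ((1 - weylSaving k) * ((e : ℝ) + 1) +
          (2 * (t : ℝ) - k + weylSaving k / 2)) := by
        rw [Real.rpow_add (by linarith : (0 : ℝ) < P) ((1 - weylSaving k) * ((e : ℝ) + 1))
            (2 * (t : ℝ) - k + weylSaving k / 2),
          Real.rpow_mul (by linarith : (0 : ℝ) ≤ P) (1 - weylSaving k) ((e : ℝ) + 1),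
          show ((e : ℝ) + 1) = ((e + 1 : ℕ) : ℝ) by push_cast; rfl, Real.rpow_natCast, mul_pow]
        ring
    _ ≤ _ := by
        refine mul_le_mul_of_nonneg_left (Real.rpow_le_rpow_of_exponent_le hP1 ?_) (by positivity)
        have h1 : (s : ℝ) = 2 * (t : ℝ) + ((e : ℝ) + 1) := by
          rw [he]; push_cast; ring
        have h2 : weylSaving k ≤ weylSaving k * ((e : ℝ) + 1) :=
          le_mul_of_one_le_right (weylSaving_pos k).le
            (by linarith [(Nat.cast_nonneg e : (0:ℝ) ≤ e)])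
        linarith

end FA.WaringHua

end
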